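import Mathlib
import Fermat.Agent.H23.MWE.Interfaces
import Fermat.Agent.H19.RH.FrameDict
import Fermat.Agent.H29.PlaceDedekind
import Fermat.Agent.H84.PlaceDeg
import Fermat.Agent.H48.MW.JetsRb

/-!
# P-MW block E / MW-E-HOL-ID (row 909): ideals of the holomorphy ring are effective divisors

`Fermat.Agent.H48.MWE.holIdeal : Fermat.Agent.H23.MWE.HolIdealStatement`.

For a nonzero ideal `J` of `H = IntRing K t` (Dedekind, fraction field `F`) the divisor is
`D = ∑_w mult_w(J) · [w]` over the height one primes `w` of `H` (= the places `≠ P`).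
-/

set_option autoImplicit false
set_option linter.unusedSectionVars false
set_option linter.style.haveILetI false
set_option maxHeartbeats 1000000

noncomputable section

namespace Fermat.Agent.H48.MWE

open AlgebraicCurve IntermediateField IsDedekindDomain Module
open IsDedekindDomain.HeightOneSpectrum

section Dedekind

variable {R : Type*} [CommRing R] [IsDedekindDomain R]

/-- Membership in a nonzero ideal of a Dedekind domain, prime by prime. -/
theorem mem_iff_forall_mem_pow {J : Ideal R} (hJ : J ≠ ⊥) (h : R) :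
    h ∈ J ↔ ∀ w : HeightOneSpectrum R, h ∈ w.asIdeal ^ multiplicity w.asIdeal J := by
  conv_lhs => rw [← Ideal.iInf_maxPowDividing_eq hJ]
  simp only [Ideal.mem_iInf, maxPowDividing_eq_pow_multiplicity hJ]

/-- The multiplicity is attained. -/
theorem exists_mem_notMem_pow_succ {J : Ideal R} (hJ : J ≠ ⊥) (w : HeightOneSpectrum R) :
    ∃ h ∈ J, h ∉ w.asIdeal ^ (multiplicity w.asIdeal J + 1) := by
  by_contra hcon
  push Not at hcon
  have hdvd : w.asIdeal ^ (multiplicity w.asIdeal J + 1) ∣ J := Ideal.dvd_iff_le.mpr hcon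
  have hfin : FiniteMultiplicity w.asIdeal J := FiniteMultiplicity.of_prime_left w.prime hJ
  exact hfin.not_pow_dvd_of_multiplicity_lt (Nat.lt_succ_self _) hdvd

/-- The finite set of primes dividing `J`. -/
def primeFinset (J : Ideal R) (hJ : J ≠ ⊥) : Finset (HeightOneSpectrum R) :=
  (Ideal.finite_factors hJ).toFinset

theorem multiplicity_eq_zero_of_notMem {J : Ideal R} (hJ : J ≠ ⊥) (w : HeightOneSpectrum R)
    (hw : w ∉ primeFinset J hJ) : multiplicity w.asIdeal J = 0 := by
  rw [primeFinset, Set.Finite.mem_toFinset, Set.mem_ofPred_eq] at hw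
  exact multiplicity_eq_zero.mpr hw

theorem prod_primeFinset (J : Ideal R) (hJ : J ≠ ⊥) :
    ∏ w ∈ primeFinset J hJ, w.asIdeal ^ multiplicity w.asIdeal J = J := by
  rw [← finprod_eq_prod_of_mulSupport_subset]
  · exact Ideal.finprod_heightOneSpectrum_pow_multiplicity hJ
  · intro w hw
    rw [Function.mem_mulSupport] at hw
    by_contra hcon
    apply hw
    rw [multiplicity_eq_zero_of_notMem hJ w (by simpa using hcon), pow_zero]

/-- Quotients of a finitely generated Dedekind algebra over a field by nonzero ideals are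
finite-dimensional. -/
theorem finite_quotient_of_finiteType {k : Type*} [Field k] [Algebra k R]
    [Algebra.FiniteType k R] (I : Ideal R) (hI : I ≠ ⊥) : Module.Finite k (R ⧸ I) := by
  haveI : Algebra.FiniteType k (R ⧸ I) :=
    Algebra.FiniteType.of_surjective (Ideal.Quotient.mkₐ k I) (Ideal.Quotient.mkₐ_surjective k I)
  have h : Ring.KrullDimLE 0 (R ⧸ I) := by
    rw [Ideal.krullDimLE_zero_quotient_iff_forall_minimalPrimes_isMaximal]
    intro J hJ
    have hJp : J.IsPrime := hJ.1.1
    have hIJ : I ≤ J := hJ.1.2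
    exact hJp.isMaximal (fun h => hI (by rw [h] at hIJ; exact le_bot_iff.mp hIJ))
  exact (Module.finite_iff_krullDimLE_zero k (R ⧸ I)).mpr h

end Dedekind

section Places

variable {K F : Type} [Field K] [Field F] [Algebra K F]
variable {R : Type} [CommRing R] [IsDedekindDomain R] [Algebra R F] [IsFractionRing R F]
  [Algebra K R] [IsScalarTower K R F]

/-- Powers of a height one prime in terms of the order at the corresponding place. -/
theorem mem_pow_iff_le_ord (w : HeightOneSpectrum R) {h : R} (hh : h ≠ 0) (n : ℕ) :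
    h ∈ w.asIdeal ^ n ↔
      (n : ℤ) ≤ (Place.ofHeightOneSpectrum (K := K) (F := F) w).ord (algebraMap R F h) := by
  rw [← w.intValuation_le_pow_iff_mem, Fermat.Agent.H29.ord_ofHeightOneSpectrum,
    w.valuation_of_algebraMap]
  have hv0 : w.intValuation h ≠ 0 := w.intValuation_ne_zero h hh
  conv_lhs => rw [← WithZero.exp_log hv0]
  rw [WithZero.exp_le_exp]
  constructor <;> intro <;> omega

end Places

/-- **MW-E-HOL-ID** (row 909). -/
theorem holIdeal : Fermat.Agent.H23.MWE.HolIdealStatement := by
  intro K F _ _ _ _ _ t P hSP J hJ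
  classical
  haveI hfd := hSP.fin
  haveI := Fermat.Agent.H84.isDedekindDomain_closure (K := K) t hSP.fin
  haveI := Fermat.Agent.H84.isFractionRing_closure (K := K) t hSP.fin
  haveI := Fermat.Agent.H84.finite_closure (K := K) t hSP.fin
  -- `H` is of finite type over `K`
  haveI hftA : Algebra.FiniteType K (Algebra.adjoin K ({t} : Set F)) :=
    Algebra.FiniteType.of_surjective (Fermat.Agent.H84.polyToA (K := K) t)
      (Fermat.Agent.H84.polyToA_surjective t)
  haveI hftH : Algebra.FiniteType K (integralClosure (Algebra.adjoin K ({t} : Set F)) F) :=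
    Algebra.FiniteType.trans hftA inferInstance
  have hfinAll : ∀ I : Ideal (integralClosure (Algebra.adjoin K ({t} : Set F)) F), I ≠ ⊥ →
      Module.Finite K ((integralClosure (Algebra.adjoin K ({t} : Set F)) F) ⧸ I) :=
    fun I hI => finite_quotient_of_finiteType I hI
  -- the dictionary
  obtain ⟨hd1, hd2, -⟩ := Fermat.Agent.H19.rhDict' (K := K) (F := F)
    (A := Algebra.adjoin K ({t} : Set F))
    (B := integralClosure (Algebra.adjoin K ({t} : Set F)) F) t (by
      ext z
      constructor
      · rintro ⟨a, rfl⟩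
        exact a.2
      · intro hz
        exact ⟨⟨z, hz⟩, rfl⟩)
  set pl : HeightOneSpectrum (integralClosure (Algebra.adjoin K ({t} : Set F)) F) → Place K F :=
    Place.ofHeightOneSpectrum (K := K) (F := F) with hpl
  have hinj : Function.Injective pl := Fermat.Agent.H29.ofHeightOneSpectrum_injective
  have hplP : ∀ w, pl w ≠ P := by
    intro w h
    have h1 := hd2 w
    have h2 := hSP.pole
    rw [← h] at h2
    exact absurd h2 (not_lt.mpr h1)
  have hsurj : ∀ Q : Place K F, Q ≠ P → ∃ w, pl w = Q := fun Q hQ => hd1 Q (hSP.reg Q hQ)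
  have hdeg : ∀ v : Place K F, v.deg = 1 :=
    fun v => Fermat.Agent.H84.place_deg_eq_one t hSP.fin v
  set s := primeFinset J hJ with hs
  -- the divisor
  set D : Divisor K F := ∑ w ∈ s, Finsupp.single (pl w) ((multiplicity w.asIdeal J : ℕ) : ℤ)
    with hDdef
  have hD : ∀ w, D (pl w) = ((multiplicity w.asIdeal J : ℕ) : ℤ) := by
    intro w
    rw [hDdef, Finsupp.finsetSum_apply]
    simp only [Finsupp.single_apply, hinj.eq_iff]
    rw [Finset.sum_ite_eq' s w]
    split_ifs with hw
    · rfl
    · rw [multiplicity_eq_zero_of_notMem hJ w hw]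
      rfl
  have hDP : D P = 0 := by
    rw [hDdef, Finsupp.finsetSum_apply]
    refine Finset.sum_eq_zero fun w _ => ?_
    rw [Finsupp.single_apply, if_neg (hplP w)]
  have hcoe : ∀ h : integralClosure (Algebra.adjoin K ({t} : Set F)) F,
      algebraMap (integralClosure (Algebra.adjoin K ({t} : Set F)) F) F h = (h : F) :=
    fun h => rfl
  refine ⟨D, hDP, ?_, ?_, ?_, hfinAll J hJ, ?_⟩
  · -- effective
    intro Q
    by_cases hQ : Q = P
    · rw [hQ, hDP]
      rfl
    · obtain ⟨w, rfl⟩ := hsurj Q hQ
      rw [hD]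
      exact Int.natCast_nonneg _
  · -- membership
    intro h
    constructor
    · intro hh
      by_cases h0 : h = 0
      · exact Or.inl h0
      · refine Or.inr fun Q hQ => ?_
        obtain ⟨w, rfl⟩ := hsurj Q hQ
        rw [hD, ← hcoe, ← mem_pow_iff_le_ord (K := K) (F := F) w h0]
        exact (mem_iff_forall_mem_pow hJ h).mp hh w
    · rintro (rfl | hh)
      · exact J.zero_mem
      · by_cases h0 : h = 0
        · rw [h0]; exact J.zero_mem
        · rw [mem_iff_forall_mem_pow hJ]
          intro w
          rw [mem_pow_iff_le_ord (K := K) (F := F) w h0, hcoe, ← hD]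
          exact hh (pl w) (hplP w)
  · -- the minima are attained
    intro Q hQ
    obtain ⟨w, rfl⟩ := hsurj Q hQ
    obtain ⟨h, hhJ, hh⟩ := exists_mem_notMem_pow_succ hJ w
    have h0 : h ≠ 0 := by
      rintro rfl
      exact hh (Ideal.zero_mem _)
    refine ⟨h, hhJ, h0, ?_⟩
    have h1 : ((multiplicity w.asIdeal J : ℕ) : ℤ) ≤ (pl w).ord (h : F) :=
      (mem_pow_iff_le_ord (K := K) (F := F) w h0 _).mp
        ((mem_iff_forall_mem_pow hJ h).mp hhJ w)
    have h2 : ¬ (((multiplicity w.asIdeal J + 1 : ℕ) : ℤ) ≤ (pl w).ord (h : F)) :=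
      (mem_pow_iff_le_ord (K := K) (F := F) w h0 (multiplicity w.asIdeal J + 1)).not.mp hh
    rw [hD]
    push_cast at h2
    omega
  · -- the dimension
    have hs' : ∀ Q ∈ s.image (fun w => w.asIdeal), Q.IsMaximal ∧ Q ≠ ⊥ ∧
        Function.Surjective (algebraMap K
          ((integralClosure (Algebra.adjoin K ({t} : Set F)) F) ⧸ Q)) := by
      intro Q hQ
      obtain ⟨w, -, rfl⟩ := Finset.mem_image.mp hQ
      refine ⟨w.isMaximal, w.ne_bot, ?_⟩
      haveI := w.isMaximal
      haveI : Module.Finite K
          ((integralClosure (Algebra.adjoin K ({t} : Set F)) F) ⧸ w.asIdeal) :=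
        hfinAll _ w.ne_bot
      exact (IsAlgClosed.algebraMap_bijective_of_isIntegral (k := K)
        (K := (integralClosure (Algebra.adjoin K ({t} : Set F)) F) ⧸ w.asIdeal)).2
    obtain ⟨-, hfr⟩ := Fermat.Agent.H48.Jets.finrank_quot_prod_pow hfinAll
      (s.image (fun w => w.asIdeal)) (fun Q => multiplicity Q J) hs'
    have hinjI : ∀ a ∈ s, ∀ b ∈ s, a.asIdeal = b.asIdeal → a = b :=
      fun a _ b _ h => HeightOneSpectrum.ext h
    rw [Finset.prod_image hinjI, prod_primeFinset J hJ, Finset.sum_image hinjI] at hfr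
    rw [hfr, hDdef, map_sum]
    push_cast
    refine Finset.sum_congr rfl fun w _ => ?_
    rw [Divisor.degree_single, hdeg, Nat.cast_one, mul_one]

end Fermat.Agent.H48.MWE
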